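import Fermat.Agent.ES.Mid.Interface
import Fermat.Agent.ES.Root
import Fermat.Agent.S24.UnifFinite
import Fermat.Agent.S24.UnifInfty
import Fermat.Agent.S24.CountZeros
import Fermat.Agent.S24.PlaceCases
import Fermat.Agent.S24.DegreeBound
import Fermat.Agent.S21.Parabolic

/-!
# ES / Dict : the dictionary places of `F_N` <-> points of `ℍ` and cusps (sub-lead: helper24)

Goal: `Mid.Stmt_KumOfDiv` (A), `Mid.Stmt_DivOfKum` (B), `Mid.Stmt_KumKer` (E).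

Every package proves `theorem stmt_xxx : Stmt_xxx` (possibly from other `Stmt_`s as explicit
hypotheses) in its own NEW file `Fermat/Agent/ES/Dict/<Name>.lean` importing this one.

Normalisation: every class of `U_m / F^{×m}` is represented by `ρ Θ`, `Θ ∈ funAlg N = ℚ̄[j(dτ)]`
(holomorphic on `ℍ`), since `θ₁/θ₂ = θ₁ θ₂^{m-1} / θ₂^m`.  So all the real work is done with the
HOLOMORPHIC Kummer datum `KumH`.
-/

set_option autoImplicit false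

namespace Fermat.Agent.ES.Dict

open UpperHalfPlane CongruenceSubgroup AlgebraicCurve ModularGroup ModularForm Filter
open scoped MatrixGroups Manifold Topology
open Fermat.Agent.S24 (Qbar FF funAlg iota IsVal IsDiffVal LocalUnif zeroPlaces Cosets MerGerm jF)
open Fermat.Agent.S24.QX (qExpHom cmI Rep)
open Fermat.Agent.S24.B7a (epsHom)
open Fermat.Agent.S24.UnifInfty (eps cuspFn)
open Fermat.Agent.ES.Mid
attribute [local instance] Fermat.Agent.S24.algQbarComplex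
local notation "𝕢" => Function.Periodic.qParam

/-- The holomorphic Kummer datum: `g` is a holomorphic `m`-th root of `Θ` on `ℍ` with character
`e(χ/m)`. -/
def KumH (N m : ℕ) [NeZero N] [NeZero m] (Θ : funAlg N) (χ : Additive (Gamma0 N) →+ ZMod m)
    (g : ℍ → ℂ) : Prop :=
  MDiff g ∧ g ≠ 0 ∧ (∀ z : ℍ, g z ^ m = (Θ : ℍ → ℂ) z) ∧
    ∀ (γ : Gamma0 N) (z : ℍ), g ((γ : SL(2, ℤ)) • z) =
      ZMod.stdAddChar (χ (Additive.ofMul γ)) * g z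

/-- The order at `τ` of a function on `ℍ` (as an integer, junk value `0` for `f = 0`). -/
noncomputable def ordAt (f : ℍ → ℂ) (τ : ℍ) : ℤ :=
  (meromorphicOrderAt (fun z : ℂ => f (ofComplex z)) (τ : ℂ)).untop₀

/-! ### NORM : reduction to the holomorphic datum -/

/-- (NORM-1) -/
def Stmt_norm : Prop :=
  ∀ (N m : ℕ) [NeZero N] [NeZero m] (u : FF N) (χ : Additive (Gamma0 N) →+ ZMod m),
    Kum N m u χ → ∃ (Θ θ₂ : funAlg N) (g : ℍ → ℂ), θ₂ ≠ 0 ∧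
      u * qExpHom N θ₂ ^ m = qExpHom N Θ ∧ KumH N m Θ χ g

/-- (NORM-2) -/
def Stmt_unnorm : Prop :=
  ∀ (N m : ℕ) [NeZero N] [NeZero m] (u : FF N) (χ : Additive (Gamma0 N) →+ ZMod m)
    (Θ θ₂ : funAlg N) (g : ℍ → ℂ), θ₂ ≠ 0 → u * qExpHom N θ₂ ^ m = qExpHom N Θ →
      KumH N m Θ χ g → Kum N m u χ

/-- (NORM-3) -/
def Stmt_isDivMulPow : Prop :=
  ∀ (N m : ℕ) (u v : FF N), v ≠ 0 → (IsDiv N m (u * v ^ m) ↔ IsDiv N m u)

/-! ### TR : elements of trace² ≤ 4 -/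

/-- (TR-1) elliptic elements have a fixed point. -/
def Stmt_fixOfTrace : Prop :=
  ∀ γ : SL(2, ℤ), (γ : Matrix (Fin 2) (Fin 2) ℤ).trace ^ 2 < 4 → ∃ τ : ℍ, γ • τ = τ

/-- (TR-2) elements with a fixed point have trace² ≤ 4. -/
def Stmt_traceOfFix : Prop :=
  ∀ (γ : SL(2, ℤ)) (τ : ℍ), γ • τ = τ → (γ : Matrix (Fin 2) (Fin 2) ℤ).trace ^ 2 ≤ 4

/-! ### VAL : abstract valuation theory (M2) -/

/-- (VAL-1) a `ℤ`-valued valuation trivial on `K` is trivial or a multiple of a place. -/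
def Stmt_valPlace : Prop :=
  ∀ (K F : Type) [Field K] [Field F] [Algebra K F] (V : F → ℤ), IsVal K V →
    (∀ f : F, f ≠ 0 → V f = 0) ∨
      ∃ (P : Place K F) (e : ℕ), 0 < e ∧ ∀ f : F, f ≠ 0 → V f = e * P.ord f

/-- (VAL-2) the form in which VAL-1 is used. -/
def Stmt_valDvd : Prop :=
  ∀ (N m : ℕ) (V : FF N → ℤ), IsVal Qbar V → ∀ u : FF N, IsDiv N m u →
    ∃ (k c : ℤ) (t : FF N), t ≠ 0 ∧ V u = m * k ∧ k = c * V t

/-! ### LOC : local analysis -/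

/-- (LOC-1) existence of the character of a root. -/
def Stmt_charExists : Prop :=
  ∀ (N m : ℕ) [NeZero N] [NeZero m] (g : ℍ → ℂ), MDiff g → g ≠ 0 →
    (∀ (γ : Gamma0 N) (z : ℍ), g ((γ : SL(2, ℤ)) • z) ^ m = g z ^ m) →
    ∃ χ : Additive (Gamma0 N) →+ ZMod m, ∀ (γ : Gamma0 N) (z : ℍ),
      g ((γ : SL(2, ℤ)) • z) = ZMod.stdAddChar (χ (Additive.ofMul γ)) * g z

/-- (LOC-2) the multiplier at a fixed point. -/
def Stmt_ellLocal : Prop :=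
  ∀ (g : ℍ → ℂ), MDiff g → g ≠ 0 → ∀ (γ : SL(2, ℤ)) (τ₁ : ℍ), γ • τ₁ = τ₁ → ∀ c : ℂ,
    (∀ z : ℍ, g (γ • z) = c * g z) → c = (1 / denom γ τ₁ ^ 2) ^ (ordAt g τ₁)

/-- (LOC-3) the multiplier at a cusp. -/
def Stmt_cuspLocal : Prop :=
  ∀ (N m : ℕ) [NeZero N] [NeZero m] (H : ℍ → ℂ), MDiff H → ∀ Φ : ℂ → ℂ, MeromorphicAt Φ 0 →
    ∀ k : ℤ, meromorphicOrderAt Φ 0 = ((m * k : ℤ) : WithTop ℤ) →
    (∀ z : ℍ, H z ^ m = Φ (𝕢 N z)) →
    ∀ (r : ℤ) (c : ℂ), (∀ z : ℍ, H (T ^ r • z) = c * H z) → c = (𝕢 N (r : ℂ)) ^ k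

/-- (LOC-4) a function on a punctured neighbourhood whose `m`-th power is meromorphic is
meromorphic. -/
def Stmt_merOfPow : Prop :=
  ∀ (m : ℕ) [NeZero m] (F : ℂ → ℂ), (∀ᶠ u in 𝓝[≠] (0 : ℂ), DifferentiableAt ℂ F u) →
    MeromorphicAt (fun u => F u ^ m) 0 → MeromorphicAt F 0

/-! ### (A) -/

/-- (A-1) orders at the points of `ℍ`. -/
def Stmt_ordFinite : Prop :=
  ∀ (N m : ℕ) [NeZero N] [NeZero m] (Θ : funAlg N), IsDiv N m (qExpHom N Θ) → ∀ τ : ℍ,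
    ∃ (k c : ℤ) (a b : funAlg N), a ≠ 0 ∧ b ≠ 0 ∧ ordAt (Θ : ℍ → ℂ) τ = m * k ∧
      k = c * (ordAt (a : ℍ → ℂ) τ - ordAt (b : ℍ → ℂ) τ)

/-- (A-2) orders at the cusps. -/
def Stmt_ordCusp : Prop :=
  ∀ (N m : ℕ) [NeZero N] [NeZero m] (Θ : funAlg N), IsDiv N m (qExpHom N Θ) → ∀ δ : SL(2, ℤ),
    ∃ (k c : ℤ) (a b : funAlg N), a ≠ 0 ∧ b ≠ 0 ∧ (eps N δ Θ).ord = m * k ∧
      k = c * ((eps N δ a).ord - (eps N δ b).ord)

/-- (A-hol) -/
def Stmt_KumHOfDiv : Prop :=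
  ∀ (N m : ℕ) [NeZero N] [NeZero m] (Θ : funAlg N), IsDiv N m (qExpHom N Θ) →
    ∃ (χ : Additive (Gamma0 N) →+ ZMod m) (g : ℍ → ℂ), IsPE χ ∧ KumH N m Θ χ g

/-! ### (B) -/

/-- (B-1) abstract: the counting argument of S24 gives `ord_v x = ` length of the cycle, hence
divisibility of `ord_v u` as soon as the roots `Hh i` of `φ i u` satisfy the same divisibility
property as the elements of `F`. -/
def Stmt_absDiv : Prop :=
  ∀ (K F M : Type) [Field K] [IsAlgClosed K] [CharZero K] [Field F] [Algebra K F]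
    [Field M] [Algebra K M] (w : M → ℤ) (δ : Derivation K M M), IsDiffVal w δ →
    ∀ (x : F), x ≠ 0 → ∀ [FiniteDimensional (IntermediateField.adjoin K {x}) F]
    (I : Type) [Fintype I],
    Module.finrank (IntermediateField.adjoin K {x}) F ≤ Fintype.card I →
    ∀ (π : Equiv.Perm I) (U : LocalUnif K w x I π) (m : ℕ) (u : F), u ≠ 0 →
    ∀ Hh : I → M, (∀ i, Hh i ^ m = U.φ i u) →
    (∀ (i : I) (h : ℕ), (π ^ h) i = i → (U.s : ℤ) ∣ h * w (Hh i)) →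
    ∀ v : Place K F, v ∈ zeroPlaces (K := K) x → (m : ℤ) ∣ v.ord u

/-- (B-2) the local uniformisation of S24 at a finite value of `j`, with its embeddings made
explicit. -/
def Stmt_unifFinite : Prop :=
  ∀ (N : ℕ) [NeZero N] (c : Qbar), ∃ (τ₀ : ℍ) (g₀ : SL(2, ℤ))
    (U : LocalUnif Qbar MerGerm.ord (jF N - algebraMap Qbar (FF N) c) (Cosets N)
      (MulAction.toPerm g₀)),
    g₀ • τ₀ = τ₀ ∧ IsPrimitiveRoot (1 / denom g₀ τ₀ ^ 2) U.s ∧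
      ∀ (g : SL(2, ℤ)) (θ : funAlg N), U.φ (g : Cosets N) (qExpHom N θ) = epsHom N τ₀ g θ

/-- (B-3) the same at `j = ∞`. -/
def Stmt_unifInfty : Prop :=
  ∀ (N : ℕ) [NeZero N], ∃ U : LocalUnif Qbar MerGerm.ord (jF N)⁻¹ (Cosets N)
      (MulAction.toPerm (T : SL(2, ℤ))),
    U.s = N ∧ ∀ (g : SL(2, ℤ)) (θ : funAlg N), U.φ (g : Cosets N) (qExpHom N θ) = eps N g⁻¹ θ

/-- (B-4) the places above a finite value of `j`. -/
def Stmt_divFinite : Prop :=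
  ∀ (N m : ℕ) [NeZero N] [NeZero m] (Θ : funAlg N) (χ : Additive (Gamma0 N) →+ ZMod m)
    (g : ℍ → ℂ), KumH N m Θ χ g → IsPE χ → ∀ (c : Qbar) (P : Place Qbar (FF N)),
      0 < P.ord (jF N - algebraMap Qbar (FF N) c) → (m : ℤ) ∣ P.ord (qExpHom N Θ)

/-- (B-5) the places above `j = ∞`. -/
def Stmt_divInfty : Prop :=
  ∀ (N m : ℕ) [NeZero N] [NeZero m] (Θ : funAlg N) (χ : Additive (Gamma0 N) →+ ZMod m)
    (g : ℍ → ℂ), KumH N m Θ χ g → IsPE χ → ∀ P : Place Qbar (FF N),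
      0 < P.ord (jF N)⁻¹ → (m : ℤ) ∣ P.ord (qExpHom N Θ)

/-- (B-hol) -/
def Stmt_DivOfKumH : Prop :=
  ∀ (N m : ℕ) [NeZero N] [NeZero m] (Θ : funAlg N) (χ : Additive (Gamma0 N) →+ ZMod m)
    (g : ℍ → ℂ), KumH N m Θ χ g → IsPE χ → IsDiv N m (qExpHom N Θ)

/-! ### (E) -/

/-- (E-1) = DICT-C: a holomorphic `Γ₀(N)`-invariant function of moderate growth at all cusps whose
`q`-expansion has coefficients in `ℚ̄` belongs to `F_N`.  (Also used for the Hecke operators.) -/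
def Stmt_invMem : Prop :=
  ∀ (N : ℕ) [NeZero N] (f : ℍ → ℂ) (y : LaurentSeries Qbar), MDiff f →
    (∀ γ : SL(2, ℤ), γ ∈ Gamma0 N → ∀ τ : ℍ, f (γ • τ) = f τ) →
    (∀ g : SL(2, ℤ), ∃ k : ℕ, IsBoundedAtImInfty (fun τ => f (g • τ) * discriminant τ ^ k)) →
    Rep (cmI y) f → y ∈ ModularCurve.modularFunctionFieldBar N

/-- The `ℂ`-algebra generated by the `j(dτ)`, `d ∣ N`. -/
noncomputable def funAlgC (N : ℕ) : Subalgebra ℂ (ℍ → ℂ) :=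
  Algebra.adjoin ℂ (Fermat.Agent.S24.funGens N)

/-- (E-1a) Lagrange interpolation over the cosets: `f * P'(j_N) = Q(j_N)`. -/
def Stmt_interp : Prop :=
  ∀ (N : ℕ) [NeZero N] (f : ℍ → ℂ), MDiff f →
    (∀ γ : SL(2, ℤ), γ ∈ Gamma0 N → ∀ τ : ℍ, f (γ • τ) = f τ) →
    (∀ g : SL(2, ℤ), ∃ k : ℕ, IsBoundedAtImInfty (fun τ => f (g • τ) * discriminant τ ^ k)) →
    ∃ a b : ℍ → ℂ, a ∈ funAlgC N ∧ b ∈ funAlgC N ∧ b ≠ 0 ∧ f * b = a

/-- (E-1b) descent of the coefficients. -/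
def Stmt_descent : Prop :=
  ∀ (N : ℕ) [NeZero N] (f a b : ℍ → ℂ) (y : LaurentSeries Qbar), a ∈ funAlgC N → b ∈ funAlgC N →
    b ≠ 0 → f * b = a → Rep (cmI y) f → y ∈ ModularCurve.modularFunctionFieldBar N

/-- (E-2) `m`-th roots of series with coefficients in `ℚ̄` have coefficients in `ℚ̄`. -/
def Stmt_seriesRoot : Prop :=
  ∀ (m : ℕ) [NeZero m] (x : LaurentSeries ℂ) (y : LaurentSeries Qbar), x ^ m = cmI y →
    ∃ y' : LaurentSeries Qbar, cmI y' = x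

/-- (E-3) existence of `q`-expansions. -/
def Stmt_repExists : Prop :=
  ∀ (f : ℍ → ℂ), MDiff f → (∀ τ : ℍ, f ((T : SL(2, ℤ)) • τ) = f τ) →
    (∃ k : ℕ, IsBoundedAtImInfty (fun τ => f τ * discriminant τ ^ k)) →
    ∃ x : LaurentSeries ℂ, Rep x f

/-- (E-hol) -/
def Stmt_KumHKer : Prop :=
  ∀ (N m : ℕ) [NeZero N] [NeZero m] (Θ : funAlg N) (g : ℍ → ℂ), KumH N m Θ 0 g →
    ∃ f : FF N, f ^ m = qExpHom N Θ

end Fermat.Agent.ES.Dict
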